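import Mathlib

/-!
# The cyclic coboundary lemma

Let `τ` be a permutation of finite order of a type `X`, `A` an abelian group and `f : X → A`
a function all of whose "closed orbit sums" vanish: `τ ^ j y = y → ∑ i < j, f (τ ^ i y) = 0`.
Then `f` is a coboundary: `f y = m (τ y) - m y` for some `m : X → A`.

(No divisibility assumption on `A`: this is `H¹` of a cyclic group with values in a permutation
module, computed by hand.)
-/

set_option autoImplicit false

namespace Fermat.Agent.Lib.HFree.H412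

variable {X A : Type*} [AddCommGroup A]

/-- Partial orbit sums `∑ i < k, f (τ ^ i b)`. -/
def orbSum (τ : Equiv.Perm X) (f : X → A) (b : X) (k : ℕ) : A :=
  ∑ i ∈ Finset.range k, f ((τ ^ i) b)

theorem orbSum_succ (τ : Equiv.Perm X) (f : X → A) (b : X) (k : ℕ) :
    orbSum τ f b (k + 1) = orbSum τ f b k + f ((τ ^ k) b) := by
  unfold orbSum
  rw [Finset.sum_range_succ]

theorem orbSum_add (τ : Equiv.Perm X) (f : X → A) (b : X) (k j : ℕ) :
    orbSum τ f b (k + j) = orbSum τ f b k + orbSum τ f ((τ ^ k) b) j := by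
  unfold orbSum
  rw [Finset.sum_range_add]
  congr 1
  refine Finset.sum_congr rfl fun i _ => ?_
  rw [add_comm k i, pow_add, Equiv.Perm.mul_apply]

/-- The orbit relation by natural powers. -/
def powRel (τ : Equiv.Perm X) (y y' : X) : Prop := ∃ k : ℕ, (τ ^ k) y = y'

theorem powRel_refl (τ : Equiv.Perm X) (y : X) : powRel τ y y := ⟨0, by simp⟩

theorem powRel_trans (τ : Equiv.Perm X) {y y' y'' : X} (h : powRel τ y y')
    (h' : powRel τ y' y'') : powRel τ y y'' := by
  obtain ⟨k, rfl⟩ := h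
  obtain ⟨k', rfl⟩ := h'
  exact ⟨k' + k, by rw [pow_add, Equiv.Perm.mul_apply]⟩

theorem powRel_symm (τ : Equiv.Perm X) (hfin : ∃ n : ℕ, 0 < n ∧ τ ^ n = 1) {y y' : X}
    (h : powRel τ y y') : powRel τ y' y := by
  obtain ⟨k, rfl⟩ := h
  obtain ⟨n, hn, hτ⟩ := hfin
  refine ⟨(n - 1) * k, ?_⟩
  rw [← Equiv.Perm.mul_apply, ← pow_add, ← Nat.succ_mul, Nat.succ_eq_add_one,
    Nat.sub_add_cancel hn, pow_mul, hτ, one_pow, Equiv.Perm.one_apply]

/-- The setoid of `τ`-orbits. -/
def powSetoid (τ : Equiv.Perm X) (hfin : ∃ n : ℕ, 0 < n ∧ τ ^ n = 1) : Setoid X where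
  r := powRel τ
  iseqv := ⟨powRel_refl τ, powRel_symm τ hfin, powRel_trans τ⟩

theorem orbSum_eq_of_pow_eq (τ : Equiv.Perm X) (f : X → A)
    (hf : ∀ (y : X) (j : ℕ), (τ ^ j) y = y → orbSum τ f y j = 0) (b : X) {k k' : ℕ}
    (h : (τ ^ k) b = (τ ^ k') b) : orbSum τ f b k = orbSum τ f b k' := by
  wlog hle : k ≤ k' generalizing k k'
  · exact (this h.symm (le_of_not_ge hle)).symm
  obtain ⟨j, rfl⟩ := Nat.exists_eq_add_of_le hle
  rw [orbSum_add, hf ((τ ^ k) b) j, add_zero]
  rw [← Equiv.Perm.mul_apply, ← pow_add, add_comm j k]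
  exact h.symm

/-- **Cyclic coboundary lemma.** -/
theorem exists_coboundary_of_orbSum (τ : Equiv.Perm X) (hfin : ∃ n : ℕ, 0 < n ∧ τ ^ n = 1)
    (f : X → A) (hf : ∀ (y : X) (j : ℕ), (τ ^ j) y = y → orbSum τ f y j = 0) :
    ∃ m : X → A, ∀ y, f y = m (τ y) - m y := by
  classical
  let s : Setoid X := powSetoid τ hfin
  let base : X → X := fun y => Quotient.out (Quotient.mk s y)
  have hbase : ∀ y, ∃ k : ℕ, (τ ^ k) (base y) = y := fun y =>
    Quotient.exact (Quotient.out_eq (Quotient.mk s y))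
  have hbase_τ : ∀ y, base (τ y) = base y := by
    intro y
    have : Quotient.mk s (τ y) = Quotient.mk s y :=
      Quotient.sound (powRel_symm τ hfin ⟨1, by simp⟩)
    show Quotient.out (Quotient.mk s (τ y)) = Quotient.out (Quotient.mk s y)
    rw [this]
  let m : X → A := fun y => orbSum τ f (base y) (Classical.choose (hbase y))
  have hm : ∀ (y : X) (k : ℕ), (τ ^ k) (base y) = y → m y = orbSum τ f (base y) k := by
    intro y k hk
    apply orbSum_eq_of_pow_eq τ f hf
    rw [Classical.choose_spec (hbase y), hk]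
  refine ⟨m, fun y => ?_⟩
  obtain ⟨k, hk⟩ := hbase y
  have h1 : (τ ^ (k + 1)) (base (τ y)) = τ y := by
    rw [hbase_τ, pow_succ', Equiv.Perm.mul_apply, hk]
  rw [hm (τ y) (k + 1) h1, hm y k hk, hbase_τ, orbSum_succ, hk]
  abel

end Fermat.Agent.Lib.HFree.H412
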