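import Fermat.Agent.S20.H270.Cocycle
import Fermat.Agent.S20.H270.Parabolic
import Fermat.Agent.Lib.HFree.H412.Cyclic

/-!
# Shapiro cocycles for a subgroup `Γ ≤ SL(2,ℤ)` with values in an arbitrary abelian group

`X = SL(2,ℤ) ⧸ Γ`.  For an additive character `c : Γ → A` we construct the induced cocycle
`shap c : SL(2,ℤ) → (X → A)` (values in the permutation module), with
`shap c γ x₀ = c γ` for `γ ∈ Γ`, and conversely restrict cocycles to characters.
-/

set_option autoImplicit false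

open scoped MatrixGroups
open ModularGroup

namespace Fermat.Agent.Lib.HFree.H412

open Fermat.Agent.S20.H270 (Umat IsCocycle)

section PermRep

variable (A : Type*) [AddCommGroup A] {G : Type*} [Group G] {X : Type*} [MulAction G X]

/-- The permutation representation of `G` on `X → A`, by `ℤ`-linear equivalences:
`(g • m) x = m (g⁻¹ • x)`. -/
def permRep : G →* ((X → A) ≃ₗ[ℤ] (X → A)) where
  toFun g :=
    { toFun := fun m x => m (g⁻¹ • x)
      invFun := fun m x => m (g • x)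
      map_add' := fun _ _ => rfl
      map_smul' := fun _ _ => rfl
      left_inv := fun m => by funext x; simp
      right_inv := fun m => by funext x; simp }
  map_one' := by
    ext m x
    simp
  map_mul' g h := by
    ext m x
    simp [mul_smul]

@[simp] theorem permRep_apply (g : G) (m : X → A) (x : X) :
    permRep A g m x = m (g⁻¹ • x) := rfl

variable {A}

theorem permRep_single [DecidableEq X] (g : G) (x : X) (a : A) :
    permRep A g (Pi.single x a) = Pi.single (g • x) a := by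
  funext y
  rw [permRep_apply]
  by_cases h : y = g • x
  · subst h
    simp
  · rw [Pi.single_eq_of_ne h, Pi.single_eq_of_ne]
    intro h'
    apply h
    rw [← h', smul_inv_smul]

theorem sum_permRep [Fintype X] (g : G) (m : X → A) :
    ∑ x, permRep A g m x = ∑ x, m x := by
  simp only [permRep_apply]
  exact Fintype.sum_equiv (MulAction.toPerm g⁻¹) _ _ (fun _ => rfl)

/-- The permutation `x ↦ g⁻¹ • x`. -/
def invPerm (X : Type*) [MulAction G X] (g : G) : Equiv.Perm X := MulAction.toPerm g⁻¹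

@[simp] theorem invPerm_apply (g : G) (x : X) : invPerm X g x = g⁻¹ • x := rfl

theorem invPerm_pow_apply (g : G) (k : ℕ) (x : X) : (invPerm X g ^ k) x = (g ^ k)⁻¹ • x := by
  induction k generalizing x with
  | zero => simp
  | succ k ih =>
    rw [pow_succ, Equiv.Perm.mul_apply, ih, invPerm_apply, ← mul_smul, pow_succ', mul_inv_rev]

theorem invPerm_finOrder [Finite X] (g : G) : ∃ n : ℕ, 0 < n ∧ invPerm X g ^ n = 1 :=
  isOfFinOrder_iff_pow_eq_one.mp (isOfFinOrder_of_finite (invPerm X g))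

end PermRep

section Cocycle

variable {A : Type*} [AddCommGroup A] {Γ : Subgroup SL(2, ℤ)}

/-- Power formula for cocycles with values in a permutation module. -/
theorem cocycle_pow_apply {z : SL(2, ℤ) → ((SL(2, ℤ) ⧸ Γ) → A)}
    (hz : IsCocycle (permRep A) z) (g : SL(2, ℤ)) (j : ℕ) (y : SL(2, ℤ) ⧸ Γ) :
    z (g ^ j) y = orbSum (invPerm (SL(2, ℤ) ⧸ Γ) g) (z g) y j := by
  induction j with
  | zero =>
    rw [pow_zero, hz.map_one]
    simp [orbSum]
  | succ j ih =>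
    rw [orbSum_succ, ← ih, pow_succ, hz (g ^ j) g, Pi.add_apply, permRep_apply,
      invPerm_pow_apply]

/-- A cocycle whose "closed orbit values" `z (g ^ j) y`, `g ^ j • y = y`, vanish is a coboundary
on `g`. -/
theorem exists_eq_coboundary_at [Finite (SL(2, ℤ) ⧸ Γ)]
    {z : SL(2, ℤ) → ((SL(2, ℤ) ⧸ Γ) → A)}
    (hz : IsCocycle (permRep A) z) (g : SL(2, ℤ))
    (h0 : ∀ (y : SL(2, ℤ) ⧸ Γ) (j : ℕ), (g ^ j)⁻¹ • y = y → z (g ^ j) y = 0) :
    ∃ m : (SL(2, ℤ) ⧸ Γ) → A, z g = permRep A g m - m := by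
  obtain ⟨m, hm⟩ := exists_coboundary_of_orbSum (invPerm (SL(2, ℤ) ⧸ Γ) g)
    (invPerm_finOrder g) (z g) (fun y j hj => by
      rw [← cocycle_pow_apply hz]
      exact h0 y j (by rwa [invPerm_pow_apply] at hj))
  refine ⟨m, ?_⟩
  funext y
  rw [hm y]
  rfl

/-- If `z g = g • m - m` then `z (g ^ k) = g ^ k • m - m` for all integers `k`. -/
theorem cocycle_zpow_of_coboundary {z : SL(2, ℤ) → ((SL(2, ℤ) ⧸ Γ) → A)}
    (hz : IsCocycle (permRep A) z) (g : SL(2, ℤ)) (m : (SL(2, ℤ) ⧸ Γ) → A)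
    (hg : z g = permRep A g m - m) (k : ℤ) :
    z (g ^ k) = permRep A (g ^ k) m - m := by
  let H : Subgroup SL(2, ℤ) :=
    { carrier := {h | z h = permRep A h m - m}
      one_mem' := by
        show z 1 = permRep A 1 m - m
        rw [hz.map_one, map_one]
        simp
      mul_mem' := fun {a b} ha hb => by
        show z (a * b) = permRep A (a * b) m - m
        have ha' : z a = permRep A a m - m := ha
        have hb' : z b = permRep A b m - m := hb
        rw [hz a b, ha', hb', map_sub, map_mul]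
        simp only [LinearEquiv.mul_apply]
        abel
      inv_mem' := fun {a} ha => by
        show z a⁻¹ = permRep A a⁻¹ m - m
        have ha' : z a = permRep A a m - m := ha
        rw [hz.map_inv, ha', map_sub, ← LinearEquiv.mul_apply, ← map_mul, inv_mul_cancel,
          map_one]
        simp }
  have hgH : g ∈ H := hg
  exact H.zpow_mem hgH k

end Cocycle

section Shapiro

variable {A : Type*} [AddCommGroup A] {Γ : Subgroup SL(2, ℤ)}

/-- The twisting element `s(x)⁻¹ g s(g⁻¹ x)`. -/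
noncomputable def tw (g : SL(2, ℤ)) (x : SL(2, ℤ) ⧸ Γ) : SL(2, ℤ) :=
  (Quotient.out x)⁻¹ * g * Quotient.out (g⁻¹ • x)

theorem mk_out (x : SL(2, ℤ) ⧸ Γ) : (QuotientGroup.mk (Quotient.out x) : SL(2, ℤ) ⧸ Γ) = x :=
  QuotientGroup.out_eq' x

theorem tw_mem (g : SL(2, ℤ)) (x : SL(2, ℤ) ⧸ Γ) : tw g x ∈ Γ := by
  unfold tw
  rw [mul_assoc, ← QuotientGroup.eq, mk_out]
  have : (QuotientGroup.mk (g * Quotient.out (g⁻¹ • x)) : SL(2, ℤ) ⧸ Γ) =
      g • (QuotientGroup.mk (Quotient.out (g⁻¹ • x)) : SL(2, ℤ) ⧸ Γ) := rfl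
  rw [this, mk_out, smul_inv_smul]

theorem tw_mul (g h : SL(2, ℤ)) (x : SL(2, ℤ) ⧸ Γ) :
    tw (g * h) x = tw g x * tw h (g⁻¹ • x) := by
  unfold tw
  rw [mul_inv_rev, mul_smul]
  group

/-- If `g⁻¹` fixes `x`, the twisting element is a conjugate of `g`. -/
theorem tw_of_fixed {g : SL(2, ℤ)} {x : SL(2, ℤ) ⧸ Γ} (h : g⁻¹ • x = x) :
    tw g x = (Quotient.out x)⁻¹ * g * Quotient.out x := by
  unfold tw
  rw [h]

variable (Γ) in
/-- The base point of `SL(2,ℤ) ⧸ Γ`. -/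
def bpt : SL(2, ℤ) ⧸ Γ := QuotientGroup.mk 1

theorem smul_bpt_of_mem {γ : SL(2, ℤ)} (hγ : γ ∈ Γ) : γ • bpt Γ = bpt Γ := by
  show (QuotientGroup.mk (γ * 1) : SL(2, ℤ) ⧸ Γ) = QuotientGroup.mk 1
  rw [mul_one, QuotientGroup.eq, mul_one]
  exact Γ.inv_mem hγ

theorem inv_smul_bpt_of_mem {γ : SL(2, ℤ)} (hγ : γ ∈ Γ) : γ⁻¹ • bpt Γ = bpt Γ :=
  smul_bpt_of_mem (Γ.inv_mem hγ)

theorem exists_smul_bpt (x : SL(2, ℤ) ⧸ Γ) : ∃ g : SL(2, ℤ), g • bpt Γ = x := by
  refine ⟨Quotient.out x, ?_⟩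
  show (QuotientGroup.mk (Quotient.out x * 1) : SL(2, ℤ) ⧸ Γ) = x
  rw [mul_one, mk_out]

theorem out_bpt_mem : Quotient.out (bpt Γ) ∈ Γ := by
  have h : (QuotientGroup.mk (Quotient.out (bpt Γ)) : SL(2, ℤ) ⧸ Γ) = QuotientGroup.mk 1 :=
    mk_out (bpt Γ)
  rw [QuotientGroup.eq] at h
  have h2 := Γ.inv_mem h
  rwa [mul_one, inv_inv] at h2

theorem neg_one_smul_coset (hneg : (-1 : SL(2, ℤ)) ∈ Γ) (x : SL(2, ℤ) ⧸ Γ) :
    (-1 : SL(2, ℤ)) • x = x := by
  induction x using QuotientGroup.induction_on with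
  | H h =>
    show (QuotientGroup.mk (-1 * h) : SL(2, ℤ) ⧸ Γ) = QuotientGroup.mk h
    rw [QuotientGroup.eq]
    have : (-1 * h)⁻¹ * h = -1 := by
      have h1 : (-1 * h) * (-1 : SL(2, ℤ)) = h := by simp
      calc (-1 * h)⁻¹ * h = (-1 * h)⁻¹ * ((-1 * h) * (-1 : SL(2, ℤ))) := by rw [h1]
        _ = -1 := by rw [inv_mul_cancel_left]
    rw [this]
    exact hneg

theorem permRep_neg_one (A : Type*) [AddCommGroup A] (hneg : (-1 : SL(2, ℤ)) ∈ Γ) :
    permRep A (-1 : SL(2, ℤ)) = (1 : ((SL(2, ℤ) ⧸ Γ) → A) ≃ₗ[ℤ] ((SL(2, ℤ) ⧸ Γ) → A)) := by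
  ext m x
  show m ((-1 : SL(2, ℤ))⁻¹ • x) = m x
  have : ((-1 : SL(2, ℤ))⁻¹) = -1 := by decide
  rw [this, neg_one_smul_coset hneg]

/-- Additive characters of `Γ` (as raw functions). -/
def IsAddChar (c : Γ → A) : Prop := ∀ γ γ' : Γ, c (γ * γ') = c γ + c γ'

namespace IsAddChar

variable {c : Γ → A}

theorem map_one (hc : IsAddChar c) : c 1 = 0 := by
  have h := hc 1 1
  rw [mul_one] at h
  have : c 1 + c 1 = c 1 + 0 := by rw [← h, add_zero]
  exact add_left_cancel this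

theorem map_inv (hc : IsAddChar c) (γ : Γ) : c γ⁻¹ = -c γ := by
  have h := hc γ⁻¹ γ
  rw [inv_mul_cancel, hc.map_one] at h
  exact eq_neg_of_add_eq_zero_left h.symm

theorem map_conj (hc : IsAddChar c) (γ δ : Γ) : c (δ⁻¹ * γ * δ) = c γ := by
  rw [hc, hc, hc.map_inv]
  abel

end IsAddChar

/-- The Shapiro cocycle of a function `c : Γ → A`. -/
noncomputable def shap (c : Γ → A) : SL(2, ℤ) → ((SL(2, ℤ) ⧸ Γ) → A) :=
  fun g x => c ⟨tw g x, tw_mem g x⟩

omit [AddCommGroup A] in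
theorem shap_apply (c : Γ → A) (g : SL(2, ℤ)) (x : SL(2, ℤ) ⧸ Γ) :
    shap c g x = c ⟨tw g x, tw_mem g x⟩ := rfl

theorem isCocycle_shap {c : Γ → A} (hc : IsAddChar c) : IsCocycle (permRep A) (shap c) := by
  intro g h
  funext x
  rw [Pi.add_apply, permRep_apply, shap_apply, shap_apply, shap_apply, ← hc]
  congr 1
  exact Subtype.ext (tw_mul g h x)

theorem shap_bpt {c : Γ → A} (hc : IsAddChar c) (γ : Γ) : shap c (γ : SL(2, ℤ)) (bpt Γ) = c γ := by
  rw [shap_apply]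
  have h1 : (⟨tw (γ : SL(2, ℤ)) (bpt Γ), tw_mem _ _⟩ : Γ) =
      (⟨Quotient.out (bpt Γ), out_bpt_mem⟩ : Γ)⁻¹ * γ * ⟨Quotient.out (bpt Γ), out_bpt_mem⟩ := by
    apply Subtype.ext
    exact tw_of_fixed (inv_smul_bpt_of_mem γ.2)
  rw [h1, hc.map_conj]

/-- Restriction of a cocycle to a character of `Γ`. -/
def resChar (z : SL(2, ℤ) → ((SL(2, ℤ) ⧸ Γ) → A)) : Γ → A := fun γ => z (γ : SL(2, ℤ)) (bpt Γ)

theorem isAddChar_resChar {z : SL(2, ℤ) → ((SL(2, ℤ) ⧸ Γ) → A)}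
    (hz : IsCocycle (permRep A) z) : IsAddChar (resChar z) := by
  intro γ γ'
  show z ((γ : SL(2, ℤ)) * γ') (bpt Γ) = z γ (bpt Γ) + z γ' (bpt Γ)
  rw [hz, Pi.add_apply, permRep_apply, inv_smul_bpt_of_mem γ.2]

/-- Value of a cocycle on a conjugate `g h g⁻¹ ∈ Γ`, at the base point. -/
theorem cocycle_conj_bpt {z : SL(2, ℤ) → ((SL(2, ℤ) ⧸ Γ) → A)}
    (hz : IsCocycle (permRep A) z) (g h : SL(2, ℤ)) (hmem : g * h * g⁻¹ ∈ Γ) :
    z (g * h * g⁻¹) (bpt Γ) = z h (g⁻¹ • bpt Γ) := by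
  have e1 : z (g * h * g⁻¹) = z g + permRep A g (z h) - permRep A (g * h * g⁻¹) (z g) := by
    rw [hz (g * h) g⁻¹, hz g h, hz.map_inv, map_neg, ← LinearEquiv.mul_apply, ← map_mul]
    abel
  rw [e1]
  simp only [Pi.add_apply, Pi.sub_apply, permRep_apply]
  rw [inv_smul_bpt_of_mem hmem]
  abel

end Shapiro

end Fermat.Agent.Lib.HFree.H412
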