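import Fermat.Agent.Lib.HFree.H412.Trans

/-!
# Lifting parabolic characters modulo `m` to `ℤ`

`Γ ≤ SL(2,ℤ)` of finite index with `-1 ∈ Γ`.  Every additive character `c : Γ → ℤ/m` which kills
the elements of finite order and the elements of trace `2` is the reduction modulo `m` of an
additive character `c' : Γ → ℤ` killing all elements of trace `±2`.

Equivalently: `H = Γ^ab / ⟨parabolic, elliptic⟩` (`= H₁` of the compactified modular curve) is
torsion-free.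
-/

set_option autoImplicit false

open scoped MatrixGroups
open ModularGroup

namespace Fermat.Agent.Lib.HFree.H412

open Fermat.Agent.S20.H270 (Umat IsCocycle exists_cocycle S_sq_eq_neg_one Umat_cube_eq_neg_one
  T_eq_S_inv_mul_Umat rho_S_S rho_U_U_U exists_conj_T_zpow_of_trace_sq)

variable {Γ : Subgroup SL(2, ℤ)}

theorem S_pow_four : (S : SL(2, ℤ)) ^ 4 = 1 := by decide

theorem Umat_pow_six : Umat ^ 6 = 1 := by decide

section Closed

variable {A : Type*} [AddCommGroup A]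

theorem shap_pow_fixed_of_finOrder {c : Γ → A}
    (hfin : ∀ (γ : Γ) (n : ℕ), 0 < n → γ ^ n = 1 → c γ = 0) (g : SL(2, ℤ)) (N : ℕ) (hN : 0 < N)
    (hg : g ^ N = 1) (y : SL(2, ℤ) ⧸ Γ) (j : ℕ) (hj : (g ^ j)⁻¹ • y = y) :
    shap c (g ^ j) y = 0 := by
  rw [shap_apply]
  refine hfin _ N hN (Subtype.ext ?_)
  show (tw (g ^ j) y) ^ N = 1
  rw [tw_of_fixed hj]
  have h1 : ((Quotient.out y)⁻¹ * g ^ j * Quotient.out y) ^ N =
      (Quotient.out y)⁻¹ * (g ^ j) ^ N * Quotient.out y := by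
    have := conj_pow (a := (Quotient.out y)⁻¹) (b := g ^ j) (i := N)
    rwa [inv_inv] at this
  rw [h1, ← pow_mul, mul_comm j N, pow_mul, hg, one_pow, mul_one, inv_mul_cancel]

theorem trace_conj_T_pow (δ : SL(2, ℤ)) (j : ℕ) :
    ((δ⁻¹ * T ^ j * δ : SL(2, ℤ)) : Matrix (Fin 2) (Fin 2) ℤ).trace = 2 := by
  have h1 : ((δ⁻¹ * T ^ j * δ : SL(2, ℤ)) : Matrix (Fin 2) (Fin 2) ℤ).trace =
      ((δ * (δ⁻¹ * T ^ j) : SL(2, ℤ)) : Matrix (Fin 2) (Fin 2) ℤ).trace := by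
    rw [Matrix.SpecialLinearGroup.coe_mul, Matrix.SpecialLinearGroup.coe_mul (δ)
      (δ⁻¹ * T ^ j), Matrix.trace_mul_comm]
  rw [h1, mul_inv_cancel_left, ← zpow_natCast, coe_T_zpow, Matrix.trace_fin_two]
  simp

theorem shap_T_pow_fixed {c : Γ → A}
    (hpar : ∀ γ : Γ, ((γ : SL(2, ℤ)) : Matrix (Fin 2) (Fin 2) ℤ).trace = 2 → c γ = 0)
    (y : SL(2, ℤ) ⧸ Γ) (j : ℕ) (hj : ((T : SL(2, ℤ)) ^ j)⁻¹ • y = y) :
    shap c ((T : SL(2, ℤ)) ^ j) y = 0 := by
  rw [shap_apply]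
  refine hpar _ ?_
  show ((tw (T ^ j) y : SL(2, ℤ)) : Matrix (Fin 2) (Fin 2) ℤ).trace = 2
  rw [tw_of_fixed hj]
  exact trace_conj_T_pow _ j

end Closed

section Red

variable (m : ℕ)

/-- Reduction modulo `m` of integer valued functions. -/
def red {X : Type*} (n : X → ℤ) : X → ZMod m := fun x => ((n x : ℤ) : ZMod m)

theorem red_apply {X : Type*} (n : X → ℤ) (x : X) : red m n x = ((n x : ℤ) : ZMod m) := rfl

theorem red_permRep {G X : Type*} [Group G] [MulAction G X] (g : G) (n : X → ℤ) :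
    red m (permRep ℤ g n) = permRep (ZMod m) g (red m n) := rfl

theorem red_add {X : Type*} (n n' : X → ℤ) : red m (n + n') = red m n + red m n' := by
  funext x
  simp [red_apply]

theorem red_sub {X : Type*} (n n' : X → ℤ) : red m (n - n') = red m n - red m n' := by
  funext x
  simp [red_apply]

/-- A lift of a `ZMod m`-valued function. -/
def liftFun [NeZero m] {X : Type*} (f : X → ZMod m) : X → ℤ := fun x => ((f x).val : ℤ)

theorem red_liftFun [NeZero m] {X : Type*} (f : X → ZMod m) : red m (liftFun m f) = f := by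
  funext x
  simp [red_apply, liftFun]

theorem isCocycle_red {z : SL(2, ℤ) → ((SL(2, ℤ) ⧸ Γ) → ℤ)} (hz : IsCocycle (permRep ℤ) z) :
    IsCocycle (permRep (ZMod m)) (fun g => red m (z g)) := by
  intro g h
  show red m (z (g * h)) = red m (z g) + permRep (ZMod m) g (red m (z h))
  rw [hz g h, red_add, red_permRep]

end Red

theorem isCocycle_sub {A : Type*} [AddCommGroup A] {z z' : SL(2, ℤ) → ((SL(2, ℤ) ⧸ Γ) → A)}
    (hz : IsCocycle (permRep A) z) (hz' : IsCocycle (permRep A) z') :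
    IsCocycle (permRep A) (fun g => z g - z' g) := by
  intro g h
  show z (g * h) - z' (g * h) = z g - z' g + permRep A g (z h - z' h)
  rw [hz g h, hz' g h, map_sub]
  abel

/-- Two cocycles agreeing at `S` and `U = S T` are equal. -/
theorem cocycle_ext {A : Type*} [AddCommGroup A] {z z' : SL(2, ℤ) → ((SL(2, ℤ) ⧸ Γ) → A)}
    (hz : IsCocycle (permRep A) z) (hz' : IsCocycle (permRep A) z')
    (hS : z S = z' S) (hU : z Umat = z' Umat) (g : SL(2, ℤ)) : z g = z' g := by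
  have := (isCocycle_sub hz hz').eq_zero_of_S_U (sub_eq_zero.mpr hS) (sub_eq_zero.mpr hU) g
  exact sub_eq_zero.mp this

theorem coboundary_S_add {A : Type*} [AddCommGroup A] (hneg : (-1 : SL(2, ℤ)) ∈ Γ)
    (n : (SL(2, ℤ) ⧸ Γ) → A) :
    (permRep A (S : SL(2, ℤ)) n - n) + permRep A (S : SL(2, ℤ)) (permRep A (S : SL(2, ℤ)) n - n)
      = 0 := by
  rw [map_sub, rho_S_S _ (permRep_neg_one A hneg)]
  abel

theorem coboundary_U_add {A : Type*} [AddCommGroup A] (hneg : (-1 : SL(2, ℤ)) ∈ Γ)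
    (n : (SL(2, ℤ) ⧸ Γ) → A) :
    (permRep A Umat n - n) + permRep A Umat (permRep A Umat n - n)
      + permRep A Umat (permRep A Umat (permRep A Umat n - n)) = 0 := by
  simp only [map_sub]
  rw [rho_U_U_U _ (permRep_neg_one A hneg)]
  abel

theorem sum_coboundary {A : Type*} [AddCommGroup A] [Fintype (SL(2, ℤ) ⧸ Γ)] (g : SL(2, ℤ))
    (n : (SL(2, ℤ) ⧸ Γ) → A) : ∑ x, (permRep A g n - n) x = 0 := by
  simp only [Pi.sub_apply, Finset.sum_sub_distrib]
  rw [sum_permRep, sub_self]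

/-- The compatibility defect of a triple of potentials. -/
def defect {A : Type*} [AddCommGroup A] (n₁ n₂ n₃ : (SL(2, ℤ) ⧸ Γ) → A) : (SL(2, ℤ) ⧸ Γ) → A :=
  permRep A (S⁻¹ : SL(2, ℤ)) ((permRep A Umat n₂ - n₂) - (permRep A (S : SL(2, ℤ)) n₁ - n₁))
    - (permRep A (T : SL(2, ℤ)) n₃ - n₃)

theorem defect_apply {A : Type*} [AddCommGroup A] (n₁ n₂ n₃ : (SL(2, ℤ) ⧸ Γ) → A)
    (x : SL(2, ℤ) ⧸ Γ) :
    defect n₁ n₂ n₃ x = (n₂ ((T⁻¹ : SL(2, ℤ)) • x) - n₂ ((S : SL(2, ℤ)) • x)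
      - (n₁ x - n₁ ((S : SL(2, ℤ)) • x))) - (n₃ ((T⁻¹ : SL(2, ℤ)) • x) - n₃ x) := by
  have hUS : (Umat⁻¹ : SL(2, ℤ)) • ((S : SL(2, ℤ)) • x) = (T⁻¹ : SL(2, ℤ)) • x := by
    rw [← mul_smul]
    congr 1
    rw [T_eq_S_inv_mul_Umat]
    group
  have hSS : (S⁻¹ : SL(2, ℤ)) • ((S : SL(2, ℤ)) • x) = x := inv_smul_smul _ _
  simp only [defect, Pi.sub_apply, permRep_apply, inv_inv, hUS, hSS]

theorem red_defect (m : ℕ) (n₁ n₂ n₃ : (SL(2, ℤ) ⧸ Γ) → ℤ) :
    red m (defect n₁ n₂ n₃) = defect (red m n₁) (red m n₂) (red m n₃) := by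
  funext x
  rw [red_apply, defect_apply, defect_apply]
  simp [red_apply]

theorem sum_defect {A : Type*} [AddCommGroup A] [Fintype (SL(2, ℤ) ⧸ Γ)]
    (n₁ n₂ n₃ : (SL(2, ℤ) ⧸ Γ) → A) : ∑ x, defect n₁ n₂ n₃ x = 0 := by
  have h1 : ∑ x, defect n₁ n₂ n₃ x =
      ∑ x, permRep A (S⁻¹ : SL(2, ℤ))
        ((permRep A Umat n₂ - n₂) - (permRep A (S : SL(2, ℤ)) n₁ - n₁)) x
        - ∑ x, (permRep A (T : SL(2, ℤ)) n₃ - n₃) x := by
    rw [← Finset.sum_sub_distrib]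
    rfl
  rw [h1, sum_coboundary, sub_zero, sum_permRep]
  have h2 : ∑ x, ((permRep A Umat n₂ - n₂) - (permRep A (S : SL(2, ℤ)) n₁ - n₁)) x =
      ∑ x, (permRep A Umat n₂ - n₂) x - ∑ x, (permRep A (S : SL(2, ℤ)) n₁ - n₁) x := by
    rw [← Finset.sum_sub_distrib]
    rfl
  rw [h2, sum_coboundary, sum_coboundary, sub_zero]

/-- Potentials modulo `m` with vanishing defect lift to integral potentials with vanishing
defect. -/
theorem exists_lift_potentials [Γ.FiniteIndex] (m : ℕ) [NeZero m]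
    (m₁ m₂ m₃ : (SL(2, ℤ) ⧸ Γ) → ZMod m) (h : defect m₁ m₂ m₃ = 0) :
    ∃ n₁ n₂ n₃ : (SL(2, ℤ) ⧸ Γ) → ℤ, red m n₁ = m₁ ∧ red m n₂ = m₂ ∧ red m n₃ = m₃ ∧
      defect n₁ n₂ n₃ = 0 := by
  classical
  have : Finite (SL(2, ℤ) ⧸ Γ) := Subgroup.finite_quotient_of_finiteIndex
  letI : Fintype (SL(2, ℤ) ⧸ Γ) := Fintype.ofFinite _
  have hm0 : (m : ℤ) ≠ 0 := by exact_mod_cast NeZero.ne m
  have hdred : red m (defect (liftFun m m₁) (liftFun m m₂) (liftFun m m₃)) = 0 := by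
    rw [red_defect, red_liftFun, red_liftFun, red_liftFun, h]
  have hddvd : ∀ x, ∃ e : ℤ, defect (liftFun m m₁) (liftFun m m₂) (liftFun m m₃) x = m * e := by
    intro x
    have h1 : ((defect (liftFun m m₁) (liftFun m m₂) (liftFun m m₃) x : ℤ) : ZMod m) = 0 :=
      congrFun hdred x
    exact (ZMod.intCast_zmod_eq_zero_iff_dvd _ m).mp h1
  choose e he using hddvd
  have hesum : ∑ x, e x = 0 := by
    have h1 : (m : ℤ) * ∑ x, e x = 0 := by
      rw [Finset.mul_sum, ← sum_defect (liftFun m m₁) (liftFun m m₂) (liftFun m m₃)]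
      exact Finset.sum_congr rfl fun x _ => (he x).symm
    exact (mul_eq_zero.mp h1).resolve_left hm0
  obtain ⟨n'', k'', hek⟩ := mem_augGen.mp (mem_augGen_of_sum_eq_zero e hesum)
  refine ⟨fun x => liftFun m m₁ x - m * n'' x, liftFun m m₂, fun x => liftFun m m₃ x + m * k'' x,
    ?_, red_liftFun m m₂, ?_, ?_⟩
  · funext x
    have : red m (liftFun m m₁) x = m₁ x := congrFun (red_liftFun m m₁) x
    simp only [red_apply] at this
    simp [red_apply, this]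
  · funext x
    have : red m (liftFun m m₃) x = m₃ x := congrFun (red_liftFun m m₃) x
    simp only [red_apply] at this
    simp [red_apply, this]
  · funext x
    have hdx := he x
    have hex := congrFun hek x
    rw [defect_apply] at hdx
    rw [defect_apply]
    simp only [Pi.sub_apply, Pi.add_apply, permRep_apply, inv_inv, Pi.zero_apply] at hex ⊢
    rw [hex] at hdx
    linear_combination hdx

/-- **Main lifting theorem**, abstract form. -/
theorem exists_lift_addChar [Γ.FiniteIndex] (hneg : (-1 : SL(2, ℤ)) ∈ Γ) (m : ℕ) [NeZero m]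
    (c : Γ → ZMod m) (hc : IsAddChar c)
    (hfin : ∀ (γ : Γ) (n : ℕ), 0 < n → γ ^ n = 1 → c γ = 0)
    (hpar : ∀ γ : Γ, ((γ : SL(2, ℤ)) : Matrix (Fin 2) (Fin 2) ℤ).trace = 2 → c γ = 0) :
    ∃ c' : Γ → ℤ, IsAddChar c' ∧
      (∀ γ : Γ, ((γ : SL(2, ℤ)) : Matrix (Fin 2) (Fin 2) ℤ).trace = 2 ∨
        ((γ : SL(2, ℤ)) : Matrix (Fin 2) (Fin 2) ℤ).trace = -2 → c' γ = 0) ∧
      ∀ γ : Γ, ((c' γ : ℤ) : ZMod m) = c γ := by
  classical
  have : Finite (SL(2, ℤ) ⧸ Γ) := Subgroup.finite_quotient_of_finiteIndex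
  -- the Shapiro cocycle
  have hz : IsCocycle (permRep (ZMod m)) (shap c) := isCocycle_shap hc
  -- it is a coboundary on `S`, `U`, `T`
  obtain ⟨m₁, hm₁⟩ := exists_eq_coboundary_at hz S
    (fun y j hj => shap_pow_fixed_of_finOrder hfin S 4 (by norm_num) S_pow_four y j hj)
  obtain ⟨m₂, hm₂⟩ := exists_eq_coboundary_at hz Umat
    (fun y j hj => shap_pow_fixed_of_finOrder hfin Umat 6 (by norm_num) Umat_pow_six y j hj)
  obtain ⟨m₃, hm₃⟩ := exists_eq_coboundary_at hz T (fun y j hj => shap_T_pow_fixed hpar y j hj)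
  have hdef : defect m₁ m₂ m₃ = 0 := by
    unfold defect
    rw [← hm₁, ← hm₂, ← hm₃, hz.map_T]
    exact sub_self _
  obtain ⟨n₁, n₂, n₃, hred₁, hred₂, -, hdefZ⟩ := exists_lift_potentials m m₁ m₂ m₃ hdef
  have hnegZ := permRep_neg_one (Γ := Γ) ℤ hneg
  obtain ⟨z', hz', hz'S, hz'U⟩ := exists_cocycle (permRep ℤ) hnegZ
    (permRep ℤ (S : SL(2, ℤ)) n₁ - n₁) (permRep ℤ Umat n₂ - n₂)
    (coboundary_S_add hneg n₁) (coboundary_U_add hneg n₂)
  -- value at `T`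
  have hz'T : z' T = permRep ℤ (T : SL(2, ℤ)) n₃ - n₃ := by
    rw [hz'.map_T, hz'S, hz'U]
    exact sub_eq_zero.mp hdefZ
  -- the lifted character
  refine ⟨resChar z', isAddChar_resChar hz', ?_, ?_⟩
  · -- parabolic
    have hchar := isAddChar_resChar hz'
    have hkey : ∀ (g : SL(2, ℤ)) (k : ℤ) (hmem : g * T ^ k * g⁻¹ ∈ Γ),
        z' (g * T ^ k * g⁻¹) (bpt Γ) = 0 := by
      intro g k hmem
      rw [cocycle_conj_bpt hz' g (T ^ k) hmem, cocycle_zpow_of_coboundary hz' T n₃ hz'T k,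
        Pi.sub_apply, permRep_apply, sub_eq_zero]
      congr 1
      have h1 : (g * T ^ k * g⁻¹)⁻¹ • bpt Γ = bpt Γ := inv_smul_bpt_of_mem hmem
      calc ((T : SL(2, ℤ)) ^ k)⁻¹ • g⁻¹ • bpt Γ
          = g⁻¹ • ((g * T ^ k * g⁻¹)⁻¹ • bpt Γ) := by
            rw [← mul_smul, ← mul_smul]
            congr 1
            group
        _ = g⁻¹ • bpt Γ := by rw [h1]
    have hnegone : resChar z' ⟨-1, hneg⟩ = 0 := by
      have h1 : (⟨-1, hneg⟩ : Γ) * ⟨-1, hneg⟩ = 1 := by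
        apply Subtype.ext
        show (-1 : SL(2, ℤ)) * -1 = 1
        simp
      have h2 := hchar ⟨-1, hneg⟩ ⟨-1, hneg⟩
      rw [h1, hchar.map_one] at h2
      omega
    intro γ hγ
    have htr : ((γ : SL(2, ℤ)) : Matrix (Fin 2) (Fin 2) ℤ).trace ^ 2 = 4 := by
      rcases hγ with h | h <;> rw [h] <;> norm_num
    obtain ⟨g, k, hk | hk⟩ := exists_conj_T_zpow_of_trace_sq (γ : SL(2, ℤ)) htr
    · have hmem : g * T ^ k * g⁻¹ ∈ Γ := hk ▸ γ.2
      show z' (γ : SL(2, ℤ)) (bpt Γ) = 0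
      rw [hk]
      exact hkey g k hmem
    · have hmem : g * T ^ k * g⁻¹ ∈ Γ := by
        have h1 : g * T ^ k * g⁻¹ = -1 * (γ : SL(2, ℤ)) := by
          rw [hk]
          simp
        rw [h1]
        exact Γ.mul_mem hneg γ.2
      have h2 : γ = ⟨-1, hneg⟩ * ⟨g * T ^ k * g⁻¹, hmem⟩ := by
        apply Subtype.ext
        show (γ : SL(2, ℤ)) = -1 * (g * T ^ k * g⁻¹)
        rw [hk]
        simp
      rw [h2, hchar, hnegone, zero_add]
      exact hkey g k hmem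
  · -- reduction
    intro γ
    have hzr := isCocycle_red m hz'
    have h1 : (fun g => red m (z' g)) (γ : SL(2, ℤ)) = shap c (γ : SL(2, ℤ)) := by
      refine cocycle_ext hzr hz ?_ ?_ _
      · show red m (z' S) = shap c S
        rw [hz'S, red_sub, red_permRep, hred₁, hm₁]
      · show red m (z' Umat) = shap c Umat
        rw [hz'U, red_sub, red_permRep, hred₂, hm₂]
    have h2 := congrFun h1 (bpt Γ)
    rw [shap_bpt hc] at h2
    exact h2

end Fermat.Agent.Lib.HFree.H412
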