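import Fermat.Agent.Lib.HFree.H412.Lift
import Fermat.Agent.S29.DefsM

/-!
# HFree: parabolic characters of `Γ₀(N)` modulo `m` lift to `ℤ`

In the language of `Fermat.Agent.S29.DefsM` (`G0 N`, `IsParHom`):

* `exists_lift_isParHom` : every parabolic character `c : Γ₀(N) → ℤ/m` is the reduction of a
  parabolic character `c' : Γ₀(N) → ℤ`.
* `exists_eq_nsmul_of_red_eq_zero` : a parabolic `ℤ`-valued character which vanishes modulo `m` is
  `m` times a parabolic character.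

Together: `Hom_par(Γ₀(N), ℤ/m) = Hom_par(Γ₀(N), ℤ) ⊗ ℤ/m`, i.e. `H₁(X₀(N), ℤ)` is torsion-free.
Consequences (with the Kummer dictionary `J₀(N)[m] ≅ Hom_par(Γ₀(N), ℤ/m)` of rows S29/S30):
`J₀(N)[m] ≅ (ℤ/m)^{2g}`, `J₀(N)[p^∞]` is divisible, and every Hecke eigensystem occurring in
`J₀(N)[p]` lifts to characteristic `0` (Deligne–Serre).
-/

set_option autoImplicit false

open scoped MatrixGroups
open ModularGroup

namespace Fermat.Agent.Lib.HFree.H412

open Fermat.Agent.S29 (G0 IsParHom)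

theorem neg_one_mem_Gamma0_HFree (N : ℕ) : (-1 : SL(2, ℤ)) ∈ CongruenceSubgroup.Gamma0 N := by
  rw [CongruenceSubgroup.Gamma0_mem]
  simp

/-- `ℤ`-valued additive characters kill elements of finite order. -/
theorem eq_zero_of_pow_eq_one {G : Type*} [Group G] {c : G → ℤ}
    (hc : ∀ γ γ' : G, c (γ * γ') = c γ + c γ') (γ : G) (n : ℕ) (hn : 0 < n) (hγ : γ ^ n = 1) :
    c γ = 0 := by
  have h1 : c 1 = 0 := by
    have h := hc 1 1
    rw [mul_one] at h
    omega
  have hpow : ∀ k : ℕ, c (γ ^ k) = k * c γ := by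
    intro k
    induction k with
    | zero => simp [h1]
    | succ k ih =>
      rw [pow_succ, hc, ih]
      push_cast
      ring
  have h2 := hpow n
  rw [hγ, h1] at h2
  have hn' : (n : ℤ) ≠ 0 := by exact_mod_cast hn.ne'
  exact (mul_eq_zero.mp h2.symm).resolve_left hn'

/-- **HFree.** Every parabolic character of `Γ₀(N)` modulo `m` lifts to a parabolic character
with values in `ℤ`. -/
theorem exists_lift_isParHom (N : ℕ) [NeZero N] (m : ℕ) [NeZero m] (c : G0 N → ZMod m)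
    (hc : IsParHom c) :
    ∃ c' : G0 N → ℤ, IsParHom c' ∧ ∀ γ : G0 N, ((c' γ : ℤ) : ZMod m) = c γ := by
  obtain ⟨c', hc', hpar, hred⟩ := exists_lift_addChar (Γ := CongruenceSubgroup.Gamma0 N)
    (neg_one_mem_Gamma0_HFree N) m c hc.map_mul hc.elliptic
    (fun γ hγ => hc.parabolic γ (Or.inl hγ))
  exact ⟨c', ⟨hc', hpar, fun γ n hn hγ => eq_zero_of_pow_eq_one hc' γ n hn hγ⟩, hred⟩

/-- A parabolic `ℤ`-valued character which vanishes modulo `m` is `m` times a parabolic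
character. -/
theorem exists_eq_nsmul_of_red_eq_zero (N : ℕ) (m : ℕ) [NeZero m] (c : G0 N → ℤ)
    (hc : IsParHom c) (h0 : ∀ γ : G0 N, ((c γ : ℤ) : ZMod m) = 0) :
    ∃ c' : G0 N → ℤ, IsParHom c' ∧ ∀ γ : G0 N, c γ = m * c' γ := by
  have hm0 : (m : ℤ) ≠ 0 := by exact_mod_cast NeZero.ne m
  have hdvd : ∀ γ : G0 N, ∃ e : ℤ, c γ = m * e := fun γ =>
    (ZMod.intCast_zmod_eq_zero_iff_dvd (c γ) m).mp (h0 γ)
  choose c' hc' using hdvd
  refine ⟨c', ⟨fun γ γ' => ?_, fun γ hγ => ?_, fun γ n hn hγ => ?_⟩, hc'⟩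
  · apply mul_left_cancel₀ hm0
    rw [mul_add, ← hc', ← hc', ← hc', hc.map_mul]
  · apply mul_left_cancel₀ hm0
    rw [← hc', mul_zero, hc.parabolic γ hγ]
  · apply mul_left_cancel₀ hm0
    rw [← hc', mul_zero, hc.elliptic γ n hn hγ]

/-- The reduction modulo `m` of a parabolic character is parabolic. -/
theorem isParHom_red (N : ℕ) (m : ℕ) (c : G0 N → ℤ) (hc : IsParHom c) :
    IsParHom (fun γ => ((c γ : ℤ) : ZMod m)) :=
  ⟨fun γ γ' => by rw [hc.map_mul]; push_cast; rfl,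
   fun γ hγ => by rw [hc.parabolic γ hγ]; simp,
   fun γ n hn hγ => by rw [hc.elliptic γ n hn hγ]; simp⟩

end Fermat.Agent.Lib.HFree.H412
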