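import Fermat.Agent.Lib.HFree.H412.Main
import Fermat.Agent.S21.Glue
import Fermat.Agent.S29.H201.PeriodHecke
import Fermat.Agent.S29.H201.PeCycle
import Fermat.Agent.Lib.Ribet.H584.DeligneSerre
import Fermat.Agent.S29.M4a.Fac

/-!
# R3 core: a Hecke eigen-character modulo `p` of `Γ₀(M)` comes from an eigenform of level `M`

Let `c : Γ₀(M) → ℤ/p` be a nonzero parabolic character (killing parabolic and finite order
elements) with `T_ℓ c = a_ℓ c` for the primes `ℓ ∤ M`, `ℓ ∉ S`.  Then there is a normalised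
eigenform `g` of weight 2 and level `M` and a maximal ideal `𝔪 ∋ p` of `ℤ̄` with
`a_ℓ(g) ≡ a_ℓ mod 𝔪` for all those `ℓ`.

Inputs: HFree (this library), the real form of Eichler–Shimura (S21: `f ↦ Re per_f` is a
bijection `S₂(Γ₀(M)) → Hom_par(Γ₀(M), ℝ)`), Hecke equivariance of the period map (S29/H201) and
Deligne–Serre lifting (Lib/Ribet/H584).
-/

set_option autoImplicit false
set_option linter.unusedSectionVars false
set_option linter.style.haveILetI false

open CuspForm CongruenceSubgroup ModularFormClass ModularCurve ModularCurve.Period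
open scoped MatrixGroups

namespace Fermat.Agent.Lib.HFree.H412

open Fermat.Agent.S29.H201 (heckeHom heckeHom_comp heckeHom_mem_pe IsPe periodMap_heckeTLin)
open Fermat.Agent.S21 (reHom exists_re_periodMap_eq eq_zero_of_re_periodMap_eq_zero
  periodMap_add periodMap_sub periodMap_smul)

variable {M : ℕ} [NeZero M]

/-! ### Integral parabolic characters -/

/-- `ℤ`-valued characters kill elements of finite order. -/
theorem int_hom_finOrder (c : Additive (Gamma0 M) →+ ℤ) (γ : Gamma0 M) (hγ : IsOfFinOrder γ) :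
    c (Additive.ofMul γ) = 0 := by
  obtain ⟨n, hn, hγn⟩ := hγ.exists_pow_eq_one
  have h1 : c (Additive.ofMul (γ ^ n)) = n • c (Additive.ofMul γ) := by
    rw [ofMul_pow, map_nsmul]
  rw [hγn, ofMul_one, map_zero] at h1
  have hn' : (n : ℤ) ≠ 0 := by exact_mod_cast hn.ne'
  rw [nsmul_eq_mul] at h1
  exact (mul_eq_zero.mp h1.symm).resolve_left hn'

theorem isPe_int {c : Additive (Gamma0 M) →+ ℤ} (hc : IsParabolicHom (Gamma0 M) c) : IsPe c :=
  ⟨hc, fun γ hγ => int_hom_finOrder c γ hγ⟩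

/-- HFree for bundled characters. -/
theorem exists_lift_isPe (m : ℕ) [NeZero m] (c : Additive (Gamma0 M) →+ ZMod m) (hc : IsPe c) :
    ∃ c' : Additive (Gamma0 M) →+ ℤ, IsParabolicHom (Gamma0 M) c' ∧
      (Int.castAddHom (ZMod m)).comp c' = c := by
  obtain ⟨c', hc', hpar, hred⟩ := exists_lift_addChar (Γ := Gamma0 M)
    (neg_one_mem_Gamma0_HFree M) m (fun γ => c (Additive.ofMul γ))
    (fun γ γ' => map_add c (Additive.ofMul γ) (Additive.ofMul γ'))
    (fun γ n hn hγ => hc.2 γ (isOfFinOrder_iff_pow_eq_one.mpr ⟨n, hn, hγ⟩))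
    (fun γ hγ => hc.1 γ (by rw [hγ]; norm_num))
  refine ⟨AddMonoidHom.mk' (fun γ => c' (Additive.toMul γ)) (fun γ γ' => hc' _ _), ?_, ?_⟩
  · intro γ hγ
    have h2 : ((γ : SL(2, ℤ)) : Matrix (Fin 2) (Fin 2) ℤ).trace = 2 ∨
        ((γ : SL(2, ℤ)) : Matrix (Fin 2) (Fin 2) ℤ).trace = -2 := by
      have : (((γ : SL(2, ℤ)) : Matrix (Fin 2) (Fin 2) ℤ).trace - 2) *
          (((γ : SL(2, ℤ)) : Matrix (Fin 2) (Fin 2) ℤ).trace + 2) = 0 := by
        linear_combination hγ
      rcases mul_eq_zero.mp this with h' | h'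
      · left; linarith
      · right; linarith
    exact hpar γ h2
  · refine AddMonoidHom.ext fun γ => ?_
    exact hred (Additive.toMul γ)

/-- An integral parabolic character which vanishes modulo `m` is divisible by `m`. -/
theorem exists_eq_nsmul_of_comp_eq_zero (m : ℕ) [NeZero m] (c : Additive (Gamma0 M) →+ ℤ)
    (hc : IsParabolicHom (Gamma0 M) c) (h0 : (Int.castAddHom (ZMod m)).comp c = 0) :
    ∃ c' : Additive (Gamma0 M) →+ ℤ, IsParabolicHom (Gamma0 M) c' ∧ c = m • c' := by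
  have hm0 : (m : ℤ) ≠ 0 := by exact_mod_cast NeZero.ne m
  have hdvd : ∀ γ : Additive (Gamma0 M), ∃ e : ℤ, c γ = m * e := fun γ =>
    (ZMod.intCast_zmod_eq_zero_iff_dvd (c γ) m).mp (DFunLike.congr_fun h0 γ)
  choose c' hc' using hdvd
  refine ⟨AddMonoidHom.mk' c' (fun γ γ' => ?_), fun γ hγ => ?_, ?_⟩
  · apply mul_left_cancel₀ hm0
    rw [mul_add, ← hc', ← hc', ← hc', map_add]
  · apply mul_left_cancel₀ hm0
    show (m : ℤ) * c' (Additive.ofMul γ) = m * 0
    rw [← hc', mul_zero, hc γ hγ]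
  · refine AddMonoidHom.ext fun γ => ?_
    show c γ = (m • AddMonoidHom.mk' c' _) γ
    rw [AddMonoidHom.smul_apply, nsmul_eq_mul]
    exact hc' γ

/-! ### The lattice of cusp forms with integral real periods -/

/-- The cusp forms whose real periods form an integral parabolic character. -/
def intPerLattice (M : ℕ) [NeZero M] : AddSubgroup (CuspForm (Gamma0 M) 2) where
  carrier := {f | ∃ c : Additive (Gamma0 M) →+ ℤ, IsParabolicHom (Gamma0 M) c ∧
    reHom (periodMap M f) = (Int.castAddHom ℝ).comp c}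
  zero_mem' := by
    refine ⟨0, fun _ _ => rfl, ?_⟩
    refine AddMonoidHom.ext fun γ => ?_
    have h0 : periodMap M (0 : CuspForm (Gamma0 M) 2) = 0 := by
      have := periodMap_smul (N := M) (0 : ℂ) (0 : CuspForm (Gamma0 M) 2)
      rwa [zero_smul, zero_smul] at this
    show (periodMap M (0 : CuspForm (Gamma0 M) 2) γ).re = ((0 : ℤ) : ℝ)
    rw [h0]
    simp
  add_mem' := by
    rintro f g ⟨c, hc, hf⟩ ⟨d, hd, hg⟩
    refine ⟨c + d, fun γ hγ => ?_, ?_⟩
    · show c (Additive.ofMul γ) + d (Additive.ofMul γ) = 0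
      rw [hc γ hγ, hd γ hγ, add_zero]
    · refine AddMonoidHom.ext fun γ => ?_
      have h1 : (periodMap M f γ).re = ((c γ : ℤ) : ℝ) := DFunLike.congr_fun hf γ
      have h2 : (periodMap M g γ).re = ((d γ : ℤ) : ℝ) := DFunLike.congr_fun hg γ
      show (periodMap M (f + g) γ).re = (((c + d) γ : ℤ) : ℝ)
      rw [periodMap_add, AddMonoidHom.add_apply, Complex.add_re, h1, h2,
        AddMonoidHom.add_apply]
      push_cast
      rfl
  neg_mem' := by
    rintro f ⟨c, hc, hf⟩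
    refine ⟨-c, fun γ hγ => ?_, ?_⟩
    · show -c (Additive.ofMul γ) = 0
      rw [hc γ hγ, neg_zero]
    · refine AddMonoidHom.ext fun γ => ?_
      have h1 : (periodMap M f γ).re = ((c γ : ℤ) : ℝ) := DFunLike.congr_fun hf γ
      have hneg : periodMap M (-f) = -periodMap M f := by
        have := periodMap_smul (N := M) (-1 : ℂ) f
        rwa [neg_one_smul, neg_one_smul] at this
      show (periodMap M (-f) γ).re = (((-c) γ : ℤ) : ℝ)
      rw [hneg, AddMonoidHom.neg_apply, Complex.neg_re, h1, AddMonoidHom.neg_apply]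
      push_cast
      rfl

theorem mem_intPerLattice {f : CuspForm (Gamma0 M) 2} :
    f ∈ intPerLattice M ↔ ∃ c : Additive (Gamma0 M) →+ ℤ, IsParabolicHom (Gamma0 M) c ∧
      reHom (periodMap M f) = (Int.castAddHom ℝ).comp c := Iff.rfl

/-- Every integral parabolic character is the real period character of a cusp form. -/
theorem exists_mem_intPerLattice (c : Additive (Gamma0 M) →+ ℤ)
    (hc : IsParabolicHom (Gamma0 M) c) :
    ∃ f : CuspForm (Gamma0 M) 2, reHom (periodMap M f) = (Int.castAddHom ℝ).comp c := by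
  obtain ⟨f, hf⟩ := exists_re_periodMap_eq ((Int.castAddHom ℝ).comp c) (fun γ hγ => by
    show ((c (Additive.ofMul γ) : ℤ) : ℝ) = 0
    rw [hc γ hγ]
    simp)
  refine ⟨f, AddMonoidHom.ext fun γ => ?_⟩
  obtain ⟨γ, rfl⟩ : ∃ γ' : Gamma0 M, Additive.ofMul γ' = γ := ⟨Additive.toMul γ, rfl⟩
  exact hf γ

/-- A cusp form is determined by its real periods. -/
theorem eq_of_reHom_periodMap_eq {f g : CuspForm (Gamma0 M) 2}
    (h : reHom (periodMap M f) = reHom (periodMap M g)) : f = g := by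
  rw [← sub_eq_zero]
  refine eq_zero_of_re_periodMap_eq_zero (f - g) fun γ => ?_
  have h1 : (periodMap M f (Additive.ofMul γ)).re = (periodMap M g (Additive.ofMul γ)).re :=
    DFunLike.congr_fun h (Additive.ofMul γ)
  rw [periodMap_sub, AddMonoidHom.sub_apply, Complex.sub_re, h1, sub_self]

/-- Real periods of `T_ℓ f`. -/
theorem reHom_periodMap_heckeTLin {ℓ : ℕ} [Fact ℓ.Prime] (hℓ : ℓ.Prime) (hℓM : ¬ ℓ ∣ M)
    (f : CuspForm (Gamma0 M) 2) :
    reHom (periodMap M (heckeTLin 2 hℓ hℓM f)) = heckeHom ℓ hℓM ℝ (reHom (periodMap M f)) := by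
  rw [periodMap_heckeTLin hℓ hℓM f]
  exact (heckeHom_comp hℓM Complex.reLm.toAddMonoidHom (periodMap M f)).symm

theorem heckeTLin_mem_intPerLattice {ℓ : ℕ} (hℓ : ℓ.Prime) (hℓM : ¬ ℓ ∣ M)
    {f : CuspForm (Gamma0 M) 2} (hf : f ∈ intPerLattice M) :
    heckeTLin 2 hℓ hℓM f ∈ intPerLattice M := by
  haveI : Fact ℓ.Prime := ⟨hℓ⟩
  obtain ⟨c, hc, hfc⟩ := hf
  refine ⟨heckeHom ℓ hℓM ℤ c, (heckeHom_mem_pe hℓM (isPe_int hc)).1, ?_⟩
  rw [reHom_periodMap_heckeTLin hℓ hℓM, hfc, heckeHom_comp]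

/-- The Hecke algebra away from `S'` (containing all primes dividing `M`) preserves the lattice. -/
theorem apply_mem_intPerLattice (S' : Set ℕ) (hS' : ∀ q : ℕ, q.Prime → q ∣ M → q ∈ S')
    {t : Module.End ℂ (CuspForm (Gamma0 M) 2)} (ht : t ∈ heckeAlgebra M 2 S')
    {f : CuspForm (Gamma0 M) 2} (hf : f ∈ intPerLattice M) : t f ∈ intPerLattice M := by
  induction ht using Algebra.adjoin_induction generalizing f with
  | mem x hx =>
    rcases hx with ⟨ℓ, hℓ, hℓM, -, rfl⟩ | ⟨q, hqM, hq, hqS, rfl⟩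
    · exact heckeTLin_mem_intPerLattice hℓ hℓM hf
    · exact absurd (hS' q hq hqM) hqS
  | algebraMap r =>
    rw [Algebra.algebraMap_eq_smul_one, LinearMap.smul_apply, Module.End.one_apply]
    exact (intPerLattice M).zsmul_mem hf r
  | add x y _ _ hx hy =>
    rw [LinearMap.add_apply]
    exact (intPerLattice M).add_mem (hx hf) (hy hf)
  | mul x y _ _ hx hy =>
    rw [Module.End.mul_apply]
    exact hx (hy hf)

/-! ### The main theorem -/

/-- **R3 core.** A nonzero parabolic Hecke eigen-character modulo `p` of `Γ₀(M)` is congruent to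
a normalised eigenform of level `M`. -/
theorem exists_eigenform_of_eigen_isPe {p : ℕ} (hp : p.Prime) (S : Set ℕ) (a : ℕ → ℤ)
    (c : Additive (Gamma0 M) →+ ZMod p) (hc : IsPe c) (hc0 : c ≠ 0)
    (heig : ∀ (ℓ : ℕ) [Fact ℓ.Prime] (hℓM : ¬ ℓ ∣ M), ℓ ∉ S →
      heckeHom ℓ hℓM (ZMod p) c = a ℓ • c) :
    ∃ (g : CuspForm (Gamma0 M) 2) (𝔪 : Ideal (integralClosure ℤ ℂ)),
      g.IsNormalizedEigenform ∧ 𝔪.IsMaximal ∧ (p : integralClosure ℤ ℂ) ∈ 𝔪 ∧
      ∀ ℓ : ℕ, ℓ.Prime → ¬ ℓ ∣ M → ℓ ∉ S →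
        ∃ b : integralClosure ℤ ℂ, (b : ℂ) = qCoeff g ℓ ∧
          b - ((a ℓ : ℤ) : integralClosure ℤ ℂ) ∈ 𝔪 := by
  classical
  haveI : NeZero p := ⟨hp.ne_zero⟩
  -- the excluded set
  set S' : Set ℕ := {ℓ | ℓ ∈ S ∨ ℓ ∣ M} with hS'def
  have hS' : ∀ q : ℕ, q.Prime → q ∣ M → q ∈ S' := fun q _ hqM => Or.inr hqM
  -- lift the character and realise it by real periods
  obtain ⟨c', hc'par, hc'red⟩ := exists_lift_isPe p c hc
  obtain ⟨f₀, hf₀⟩ := exists_mem_intPerLattice c' hc'par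
  have hf₀L : f₀ ∈ intPerLattice M := ⟨c', hc'par, hf₀⟩
  -- the ideal
  set gens : Set (heckeAlgebra M 2 S') :=
    insert ((p : ℕ) : heckeAlgebra M 2 S')
      {t | ∃ (ℓ : ℕ) (hℓ : ℓ.Prime) (hℓM : ¬ ℓ ∣ M) (hℓS : ℓ ∉ S'),
        t = heckeAlgebra.T hℓ hℓM hℓS - ((a ℓ : ℤ) : heckeAlgebra M 2 S')} with hgens
  have hkey : ∀ t ∈ Ideal.span gens, ∃ f' ∈ intPerLattice M,
      (t : Module.End ℂ (CuspForm (Gamma0 M) 2)) f₀ = p • f' := by
    intro t ht
    induction ht using Submodule.span_induction with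
    | mem x hx =>
      rcases hx with rfl | ⟨ℓ, hℓ, hℓM, hℓS, rfl⟩
      · refine ⟨f₀, hf₀L, ?_⟩
        show ((heckeAlgebra M 2 S').val ((p : ℕ) : heckeAlgebra M 2 S')) f₀ = p • f₀
        rw [map_natCast, Module.End.natCast_apply]
      · haveI : Fact ℓ.Prime := ⟨hℓ⟩
        have hℓS0 : ℓ ∉ S := fun h => hℓS (Or.inl h)
        -- the integral character `T_ℓ c' - a_ℓ c'` vanishes mod `p`
        set d : Additive (Gamma0 M) →+ ℤ := heckeHom ℓ hℓM ℤ c' - a ℓ • c' with hd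
        have hdpar : IsParabolicHom (Gamma0 M) d := by
          intro γ hγ
          show heckeHom ℓ hℓM ℤ c' (Additive.ofMul γ) - a ℓ • c' (Additive.ofMul γ) = 0
          rw [(heckeHom_mem_pe hℓM (isPe_int hc'par)).1 γ hγ, hc'par γ hγ]
          simp
        have hdred : (Int.castAddHom (ZMod p)).comp d = 0 := by
          have h1 : (Int.castAddHom (ZMod p)).comp (heckeHom ℓ hℓM ℤ c') =
              heckeHom ℓ hℓM (ZMod p) c := by
            rw [← heckeHom_comp, hc'red]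
          refine AddMonoidHom.ext fun γ => ?_
          have h2 := DFunLike.congr_fun h1 γ
          have h3 := DFunLike.congr_fun (heig ℓ hℓM hℓS0) γ
          have h4 := DFunLike.congr_fun hc'red γ
          simp only [AddMonoidHom.comp_apply, Int.coe_castAddHom, AddMonoidHom.smul_apply]
            at h2 h3 h4
          show (((heckeHom ℓ hℓM ℤ c' γ - a ℓ • c' γ : ℤ)) : ZMod p) = 0
          rw [smul_eq_mul]
          push_cast
          rw [h2, h3, h4, zsmul_eq_mul, sub_self]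
        obtain ⟨d', hd'par, hdd'⟩ := exists_eq_nsmul_of_comp_eq_zero p d hdpar hdred
        obtain ⟨f', hf'⟩ := exists_mem_intPerLattice d' hd'par
        refine ⟨f', ⟨d', hd'par, hf'⟩, ?_⟩
        have hcoe : ((heckeAlgebra.T hℓ hℓM hℓS - ((a ℓ : ℤ) : heckeAlgebra M 2 S') :
            heckeAlgebra M 2 S') : Module.End ℂ (CuspForm (Gamma0 M) 2)) f₀ =
            heckeTLin 2 hℓ hℓM f₀ - (a ℓ : ℤ) • f₀ := by
          show ((heckeAlgebra M 2 S').val (heckeAlgebra.T hℓ hℓM hℓS -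
            ((a ℓ : ℤ) : heckeAlgebra M 2 S'))) f₀ = _
          rw [map_sub, map_intCast, LinearMap.sub_apply, Module.End.intCast_apply]
          rfl
        rw [hcoe]
        apply eq_of_reHom_periodMap_eq
        refine AddMonoidHom.ext fun γ => ?_
        have e1 := DFunLike.congr_fun (reHom_periodMap_heckeTLin hℓ hℓM f₀) γ
        have e2 := DFunLike.congr_fun hf₀ γ
        have e3 := DFunLike.congr_fun hf' γ
        have e4 := DFunLike.congr_fun hdd' γ
        have e5 := DFunLike.congr_fun (heckeHom_comp hℓM (Int.castAddHom ℝ) c') γ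
        rw [hf₀] at e1
        rw [e5] at e1
        have hsmulp : periodMap M (p • f') = (p : ℂ) • periodMap M f' := by
          rw [← periodMap_smul, Nat.cast_smul_eq_nsmul]
        have hsmula : periodMap M ((a ℓ : ℤ) • f₀) = (a ℓ : ℂ) • periodMap M f₀ := by
          rw [← periodMap_smul, Int.cast_smul_eq_zsmul]
        show (periodMap M (heckeTLin 2 hℓ hℓM f₀ - (a ℓ : ℤ) • f₀) γ).re =
          (periodMap M (p • f') γ).re
        rw [periodMap_sub, hsmulp, hsmula]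
        simp only [AddMonoidHom.sub_apply, AddMonoidHom.smul_apply, Complex.sub_re,
          smul_eq_mul, Complex.mul_re, Complex.intCast_re, Complex.intCast_im,
          Complex.natCast_re, Complex.natCast_im, zero_mul, sub_zero]
        have e1' : (periodMap M (heckeTLin 2 hℓ hℓM f₀) γ).re =
            ((heckeHom ℓ hℓM ℤ c' γ : ℤ) : ℝ) := e1
        have e2' : (periodMap M f₀ γ).re = ((c' γ : ℤ) : ℝ) := e2
        have e3' : (periodMap M f' γ).re = ((d' γ : ℤ) : ℝ) := e3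
        have e4' : heckeHom ℓ hℓM ℤ c' γ - a ℓ * c' γ = p * d' γ := by
          simpa [hd, AddMonoidHom.sub_apply, AddMonoidHom.smul_apply, zsmul_eq_mul,
            nsmul_eq_mul] using e4
        rw [e1', e2', e3']
        exact_mod_cast e4'
    | zero =>
      refine ⟨0, (intPerLattice M).zero_mem, ?_⟩
      simp
    | add x y _ _ hx hy =>
      obtain ⟨f₁, hf₁, e₁⟩ := hx
      obtain ⟨f₂, hf₂, e₂⟩ := hy
      refine ⟨f₁ + f₂, (intPerLattice M).add_mem hf₁ hf₂, ?_⟩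
      rw [Subalgebra.coe_add, LinearMap.add_apply, e₁, e₂, smul_add]
    | smul b x _ hx =>
      obtain ⟨f₁, hf₁, e₁⟩ := hx
      refine ⟨(b : Module.End ℂ (CuspForm (Gamma0 M) 2)) f₁,
        apply_mem_intPerLattice S' hS' b.2 hf₁, ?_⟩
      rw [smul_eq_mul, Subalgebra.coe_mul, Module.End.mul_apply, e₁, map_nsmul]
  -- the ideal is proper
  have hne : Ideal.span gens ≠ ⊤ := by
    intro htop
    obtain ⟨f', ⟨d', hd'par, hf'⟩, e⟩ := hkey 1 (htop ▸ Submodule.mem_top)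
    rw [Subalgebra.coe_one, Module.End.one_apply] at e
    apply hc0
    rw [← hc'red]
    refine AddMonoidHom.ext fun γ => ?_
    have e2 : (periodMap M f₀ γ).re = ((c' γ : ℤ) : ℝ) := DFunLike.congr_fun hf₀ γ
    have e3 : (periodMap M f' γ).re = ((d' γ : ℤ) : ℝ) := DFunLike.congr_fun hf' γ
    have hsmulp : periodMap M (p • f') = (p : ℂ) • periodMap M f' := by
      rw [← periodMap_smul, Nat.cast_smul_eq_nsmul]
    rw [e, hsmulp] at e2
    simp only [AddMonoidHom.smul_apply, smul_eq_mul, Complex.mul_re, Complex.natCast_re,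
      Complex.natCast_im, zero_mul, sub_zero] at e2
    rw [e3] at e2
    have e4 : (p : ℤ) * d' γ = c' γ := by exact_mod_cast e2
    show ((c' γ : ℤ) : ZMod p) = 0
    rw [← e4]
    push_cast
    simp
  obtain ⟨𝔫, h𝔫max, h𝔫le⟩ := Ideal.exists_le_maximal _ hne
  letI : Field (heckeAlgebra M 2 S' ⧸ 𝔫) := Ideal.Quotient.field 𝔫
  have hpk : ((p : ℕ) : heckeAlgebra M 2 S' ⧸ 𝔫) = 0 := by
    have h1 : ((p : ℕ) : heckeAlgebra M 2 S') ∈ 𝔫 :=
      h𝔫le (Ideal.subset_span (Set.mem_insert _ _))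
    have h2 := Ideal.Quotient.eq_zero_iff_mem.mpr h1
    rwa [map_natCast] at h2
  haveI : CharP (heckeAlgebra M 2 S' ⧸ 𝔫) p := (CharP.charP_iff_prime_eq_zero hp).mpr hpk
  obtain ⟨g, 𝔪, hg, h𝔪, hp𝔪, hcongr⟩ :=
    Fermat.Agent.Lib.Ribet.H584.exists_eigenform_congr_of_ringHom S' p
      (Ideal.Quotient.mk 𝔫) a (fun ℓ hℓ hℓM hℓS => by
        have h1 : heckeAlgebra.T hℓ hℓM hℓS - ((a ℓ : ℤ) : heckeAlgebra M 2 S') ∈ 𝔫 :=
          h𝔫le (Ideal.subset_span (Set.mem_insert_of_mem _ ⟨ℓ, hℓ, hℓM, hℓS, rfl⟩))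
        have h2 := Ideal.Quotient.eq_zero_iff_mem.mpr h1
        rw [map_sub, map_intCast, sub_eq_zero] at h2
        exact h2)
  refine ⟨g, 𝔪, hg, h𝔪, hp𝔪, fun ℓ hℓ hℓM hℓS => hcongr ℓ hℓ hℓM ?_⟩
  rintro (h | h)
  · exact hℓS h
  · exact hℓM h

/-! ### The same in the language of `Fermat.Agent.S29.DefsM` (`G0`, `IsParHom`, `heckeCoh`) -/

open Fermat.Agent.S29 (G0 IsParHom heckeCoh)

/-- The bundled character of a parabolic character in the sense of `S29.DefsM`. -/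
def bundle {A : Type*} [AddCommGroup A] (c : G0 M → A) (hc : IsParHom c) :
    Additive (Gamma0 M) →+ A :=
  AddMonoidHom.mk' (fun γ => c (Additive.toMul γ)) (fun _ _ => hc.map_mul _ _)

theorem bundle_apply {A : Type*} [AddCommGroup A] (c : G0 M → A) (hc : IsParHom c)
    (γ : Gamma0 M) : bundle c hc (Additive.ofMul γ) = c γ := rfl

theorem isPe_bundle {A : Type*} [AddCommGroup A] (c : G0 M → A) (hc : IsParHom c) :
    IsPe (bundle c hc) := by
  refine ⟨fun γ hγ => ?_, fun γ hγ => ?_⟩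
  · have h2 : ((γ : SL(2, ℤ)) : Matrix (Fin 2) (Fin 2) ℤ).trace = 2 ∨
        ((γ : SL(2, ℤ)) : Matrix (Fin 2) (Fin 2) ℤ).trace = -2 := by
      have : (((γ : SL(2, ℤ)) : Matrix (Fin 2) (Fin 2) ℤ).trace - 2) *
          (((γ : SL(2, ℤ)) : Matrix (Fin 2) (Fin 2) ℤ).trace + 2) = 0 := by
        linear_combination hγ
      rcases mul_eq_zero.mp this with h' | h'
      · left; linarith
      · right; linarith
    exact hc.parabolic γ h2
  · obtain ⟨n, hn, hγn⟩ := hγ.exists_pow_eq_one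
    exact hc.elliptic γ n hn hγn

theorem heckeHom_bundle {A : Type*} [AddCommGroup A] {ℓ : ℕ} [Fact ℓ.Prime] (hℓM : ¬ ℓ ∣ M)
    (c : G0 M → A) (hc : IsParHom c) (γ : Gamma0 M) :
    heckeHom ℓ hℓM A (bundle c hc) (Additive.ofMul γ) = heckeCoh M ℓ c γ := by
  rw [Fermat.Agent.S29.M4aTop_heckeCoh_eq_sum_trf hℓM c γ]
  rfl

/-- **R3 core**, `S29.DefsM` form. -/
theorem exists_eigenform_of_eigen_isParHom {p : ℕ} (hp : p.Prime) (S : Set ℕ) (a : ℕ → ℤ)
    (c : G0 M → ZMod p) (hc : IsParHom c) (hc0 : ∃ γ, c γ ≠ 0)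
    (heig : ∀ ℓ : ℕ, ℓ.Prime → ¬ ℓ ∣ M → ℓ ∉ S →
      ∀ γ : G0 M, heckeCoh M ℓ c γ = (a ℓ : ZMod p) * c γ) :
    ∃ (g : CuspForm (Gamma0 M) 2) (𝔪 : Ideal (integralClosure ℤ ℂ)),
      g.IsNormalizedEigenform ∧ 𝔪.IsMaximal ∧ (p : integralClosure ℤ ℂ) ∈ 𝔪 ∧
      ∀ ℓ : ℕ, ℓ.Prime → ¬ ℓ ∣ M → ℓ ∉ S →
        ∃ b : integralClosure ℤ ℂ, (b : ℂ) = qCoeff g ℓ ∧
          b - ((a ℓ : ℤ) : integralClosure ℤ ℂ) ∈ 𝔪 := by
  refine exists_eigenform_of_eigen_isPe hp S a (bundle c hc) (isPe_bundle c hc) ?_ ?_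
  · intro h0
    obtain ⟨γ, hγ⟩ := hc0
    apply hγ
    rw [← bundle_apply c hc γ, h0]
    rfl
  · intro ℓ _ hℓM hℓS
    refine AddMonoidHom.ext fun γ => ?_
    obtain ⟨γ, rfl⟩ : ∃ γ' : Gamma0 M, Additive.ofMul γ' = γ := ⟨Additive.toMul γ, rfl⟩
    rw [heckeHom_bundle hℓM c hc γ, heig ℓ Fact.out hℓM hℓS γ, AddMonoidHom.smul_apply,
      bundle_apply, zsmul_eq_mul]

end Fermat.Agent.Lib.HFree.H412
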