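import Fermat.Agent.Lib.HFree.H412.Basic

/-!
# The augmentation kernel of the permutation module is `(S⁻¹ - 1) M + (T - 1) M`

`X = SL(2,ℤ) ⧸ Γ` finite, `M = (X → ℤ)`.  Since `S, T` generate `SL(2,ℤ)`, which acts
transitively on `X`, every `e : X → ℤ` with `∑ e = 0` is of the form
`(S⁻¹ • n - n) + (T • k - k)`.
-/

set_option autoImplicit false

open scoped MatrixGroups
open ModularGroup

namespace Fermat.Agent.Lib.HFree.H412

variable {Γ : Subgroup SL(2, ℤ)}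

/-- The subgroup `(S⁻¹ - 1) M + (T - 1) M` of `M = (X → ℤ)`. -/
def augGen (Γ : Subgroup SL(2, ℤ)) : AddSubgroup ((SL(2, ℤ) ⧸ Γ) → ℤ) where
  carrier := {e | ∃ n k : (SL(2, ℤ) ⧸ Γ) → ℤ,
    e = (permRep ℤ (S⁻¹ : SL(2, ℤ)) n - n) + (permRep ℤ (T : SL(2, ℤ)) k - k)}
  zero_mem' := ⟨0, 0, by simp⟩
  add_mem' := by
    rintro _ _ ⟨n, k, rfl⟩ ⟨n', k', rfl⟩
    refine ⟨n + n', k + k', ?_⟩
    rw [map_add, map_add]
    abel
  neg_mem' := by
    rintro _ ⟨n, k, rfl⟩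
    refine ⟨-n, -k, ?_⟩
    rw [map_neg, map_neg]
    abel

theorem mem_augGen {e : (SL(2, ℤ) ⧸ Γ) → ℤ} :
    e ∈ augGen Γ ↔ ∃ n k : (SL(2, ℤ) ⧸ Γ) → ℤ,
      e = (permRep ℤ (S⁻¹ : SL(2, ℤ)) n - n) + (permRep ℤ (T : SL(2, ℤ)) k - k) := Iff.rfl

open Classical in
theorem single_smul_sub_single_mem (h : SL(2, ℤ)) (x : SL(2, ℤ) ⧸ Γ) :
    (Pi.single (h • x) (1 : ℤ) - Pi.single x 1 : (SL(2, ℤ) ⧸ Γ) → ℤ) ∈ augGen Γ := by
  let H : Subgroup SL(2, ℤ) :=
    { carrier := {h | ∀ x : SL(2, ℤ) ⧸ Γ,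
        (Pi.single (h • x) (1 : ℤ) - Pi.single x 1 : (SL(2, ℤ) ⧸ Γ) → ℤ) ∈ augGen Γ}
      one_mem' := fun x => by
        rw [one_smul, sub_self]
        exact (augGen Γ).zero_mem
      mul_mem' := fun {a b} ha hb x => by
        have h1 := ha (b • x)
        have h2 := hb x
        have := (augGen Γ).add_mem h1 h2
        rw [sub_add_sub_cancel, ← mul_smul] at this
        exact this
      inv_mem' := fun {a} ha x => by
        have h1 := (augGen Γ).neg_mem (ha (a⁻¹ • x))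
        rw [smul_inv_smul, neg_sub] at h1
        exact h1 }
  have hS : (S : SL(2, ℤ)) ∈ H := by
    have hS' : (S⁻¹ : SL(2, ℤ)) ∈ H := fun x => by
      refine ⟨Pi.single x 1, 0, ?_⟩
      rw [permRep_single]
      simp
    have := H.inv_mem hS'
    rwa [inv_inv] at this
  have hT : (T : SL(2, ℤ)) ∈ H := fun x => by
    refine ⟨0, Pi.single x 1, ?_⟩
    rw [permRep_single]
    simp
  have htop : H = ⊤ := by
    rw [eq_top_iff, ← SpecialLinearGroup.SL2Z_generators, Subgroup.closure_le]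
    rintro g (rfl | hg)
    · exact hS
    · rw [Set.mem_singleton_iff] at hg
      subst hg
      exact hT
  have : h ∈ H := by rw [htop]; trivial
  exact this x

open Classical in
/-- **Transitivity lemma.** -/
theorem mem_augGen_of_sum_eq_zero [Fintype (SL(2, ℤ) ⧸ Γ)] (e : (SL(2, ℤ) ⧸ Γ) → ℤ)
    (he : ∑ x, e x = 0) : e ∈ augGen Γ := by
  have h1 : e = ∑ x, e x • (Pi.single x (1 : ℤ) - Pi.single (bpt Γ) 1 :
      (SL(2, ℤ) ⧸ Γ) → ℤ) := by
    simp only [smul_sub, Finset.sum_sub_distrib, ← Finset.sum_smul, he, zero_smul, sub_zero]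
    funext y
    rw [Finset.sum_apply]
    simp [Pi.single_apply]
  rw [h1]
  refine (augGen Γ).sum_mem fun x _ => (augGen Γ).zsmul_mem ?_ _
  obtain ⟨g, hg⟩ := exists_smul_bpt x
  rw [← hg]
  exact single_smul_sub_single_mem g (bpt Γ)

end Fermat.Agent.Lib.HFree.H412
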